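import Fermat.Agent.Reduction.Hermite

/-!
# Positive unimodular forms in at most five variables

Hermite's bound is below `2` for at most five variables, so a positive form of determinant `1`
represents `1` and splits off a square.
-/

set_option autoImplicit false

noncomputable section

namespace FA.Reduction

open Matrix Finset

theorem posDef_map_congr {n : ℕ} {A B : Matrix (Fin n) (Fin n) ℤ} (h : Congr A B)
    (hA : (A.map fun z : ℤ => (z : ℝ)).PosDef) : (B.map fun z : ℤ => (z : ℝ)).PosDef := by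
  obtain ⟨U, hU, rfl⟩ := h
  rw [map_congr_int, ← conjTranspose_eq_transpose_of_trivial]
  refine hA.conjTranspose_mul_mul_same (mulVec_injective_of_isUnit_det ?_)
  have h := hU.map (Int.castRingHom ℝ)
  rwa [RingHom.map_det] at h

theorem congr_one_of_unimodular : ∀ n : ℕ, n ≤ 5 → ∀ A : Matrix (Fin n) (Fin n) ℤ,
    (A.map fun z : ℤ => (z : ℝ)).PosDef → A.det = 1 → Congr A 1 := by
  intro n
  induction n with
  | zero => exact fun _ A _ _ => Subsingleton.elim (1 : Matrix (Fin 0) (Fin 0) ℤ) A ▸ Congr.refl _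
  | succ n ih =>
    intro hn A hpos hdet
    have hdetR : (A.map fun z : ℤ => (z : ℝ)).det = 1 := by
      have h := (Int.castRingHom ℝ).map_det A
      rw [hdet, map_one] at h
      exact h.symm
    obtain ⟨v, hv, hle⟩ := exists_short_vector n _ hpos
    rw [hdetR, one_pow, mul_one] at hle
    obtain ⟨g, w, hg, hw, rfl⟩ := exists_primitive_smul hv
    obtain ⟨U, hU, hcol⟩ := exists_unimodular_col hw
    obtain ⟨A₁, hA₁⟩ : ∃ A₁, A₁ = Uᵀ * A * U := ⟨_, rfl⟩
    have h1 : Congr A A₁ := ⟨U, hU, hA₁⟩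
    have hpos1 := posDef_map_congr h1 hpos
    have hsymm : A.IsSymm := by
      ext i j
      have := (posDef_iff_quad.1 hpos).1.apply i j
      simpa using this
    have hs1 := h1.isSymm hsymm
    have e : (A₁ 0 0 : ℝ) = quad (A.map fun z : ℤ => (z : ℝ)) fun i => (w i : ℝ) := by
      rw [hA₁, congr_apply_zero]
      simp only [hcol, quad, dotProduct, Matrix.mulVec, Matrix.map_apply, Int.cast_sum,
        Int.cast_mul]
    have hscale : quad (A.map fun z : ℤ => (z : ℝ)) (fun i => ((g • w) i : ℝ)) =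
        (g : ℝ) ^ 2 * quad (A.map fun z : ℤ => (z : ℝ)) fun i => (w i : ℝ) := by
      rw [show (fun i => ((g • w) i : ℝ)) = (g : ℝ) • fun i => (w i : ℝ) by funext i; simp, quad,
        quad, Matrix.mulVec_smul, smul_dotProduct, dotProduct_smul]
      simp [smul_eq_mul]
      ring
    rw [hscale, ← e] at hle
    have ha0 : (0 : ℝ) < (A₁ 0 0 : ℝ) := by
      have := hpos1.diag_pos (i := 0)
      simpa using this
    have ha : A₁ 0 0 = 1 := by
      by_contra hne
      have h2 : (2 : ℤ) ≤ A₁ 0 0 := by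
        have : (0 : ℤ) < A₁ 0 0 := by exact_mod_cast ha0
        omega
      have h3 : (2 : ℝ) ≤ (A₁ 0 0 : ℝ) := by exact_mod_cast h2
      have hg2 : (1 : ℝ) ≤ (g : ℝ) ^ 2 := by
        exact_mod_cast (show (1 : ℤ) ≤ g ^ 2 by nlinarith [sq_pos_of_ne_zero hg])
      have h4 : (2 : ℝ) ^ (2 * (n + 1)) ≤ (4 / 3) ^ (n * (n + 1)) :=
        (pow_le_pow_left₀ zero_le_two (h3.trans (le_mul_of_one_le_left ha0.le hg2)) _).trans hle
      rw [pow_mul, pow_mul] at h4
      have h5 := le_of_pow_le_pow_left₀ (Nat.succ_ne_zero n) (by positivity) h4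
      have h6 : (4 / 3 : ℝ) ^ n ≤ (4 / 3) ^ 4 := pow_le_pow_right₀ (by norm_num) (by omega)
      norm_num at h5 h6
      linarith
    obtain ⟨l, R, hb⟩ : ∃ l R, A₁ = bord (1 : ℤ) l R := ⟨_, _, ha ▸ bord_eq hs1⟩
    obtain ⟨S, hS⟩ : ∃ S, S = R + vecMulVec l (-l) + vecMulVec (-l) l +
        (1 : ℤ) • vecMulVec (-l) (-l) := ⟨_, rfl⟩
    have h2 : Congr A₁ (bord 1 0 S) := by
      rw [hb, hS]
      have h := congr_shear (1 : ℤ) l (-l) R
      rwa [one_smul, one_smul, add_neg_cancel, ← one_smul ℤ (vecMulVec (-l) (-l))] at h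
    have hA2 := h1.trans h2
    have hdetS : S.det = 1 := by
      have := hA2.det_eq_of_int
      rwa [det_bord_zero, one_mul, hdet] at this
    have hposS : (S.map fun z : ℤ => (z : ℝ)).PosDef := by
      have hS1 : ((bord 1 0 S).map fun z : ℤ => (z : ℝ)).submatrix Fin.succ Fin.succ =
          S.map fun z : ℤ => (z : ℝ) := by
        ext i j
        simp
      rw [← hS1]
      exact (posDef_map_congr hA2 hpos).submatrix (Fin.succ_injective n)
    obtain ⟨V, hV, hSV⟩ := ih (by omega) S hposS hdetS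
    refine hA2.trans ?_
    have h := congr_block (1 : ℤ) (0 : Fin n → ℤ) S hV
    rw [Matrix.mulVec_zero, ← hSV] at h
    have e1 : bord (1 : ℤ) 0 (1 : Matrix (Fin n) (Fin n) ℤ) = 1 := by
      ext i j
      refine Fin.cases ?_ (fun i => ?_) i <;> refine Fin.cases ?_ (fun j => ?_) j <;>
        simp [Matrix.one_apply, Fin.succ_ne_zero, (Fin.succ_ne_zero _).symm]
    rwa [e1] at h

end FA.Reduction
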