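import Fermat.Agent.Reduction.Basic
import Mathlib.Analysis.Matrix.PosDef
import Mathlib.Analysis.Matrix.Spectrum

/-!
# Hermite's inequality

A positive definite form in `n + 1` variables takes at some nonzero integer vector a value `m`
with `m ^ (2 (n + 1)) ≤ (4 / 3) ^ (n (n + 1)) det ^ 2`, and every nondegenerate symmetric real
matrix has a positive majorant with the same absolute determinant.
-/

set_option autoImplicit false

noncomputable section

namespace FA.Reduction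

open Matrix Finset

variable {n : ℕ}

/-- The value of a form. -/
def quad {K : Type*} [CommRing K] (A : Matrix (Fin n) (Fin n) K) (x : Fin n → K) : K :=
  x ⬝ᵥ (A *ᵥ x)

theorem quad_congr {K : Type*} [CommRing K] (A U : Matrix (Fin n) (Fin n) K) (x : Fin n → K) :
    quad (Uᵀ * A * U) x = quad A (U *ᵥ x) := by
  rw [quad, quad, ← Matrix.mulVec_mulVec, ← Matrix.mulVec_mulVec, Matrix.dotProduct_mulVec x Uᵀ,
    Matrix.vecMul_transpose]

theorem quad_bord {K : Type*} [CommRing K] (a t : K) (l x : Fin n → K)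
    (R : Matrix (Fin n) (Fin n) K) :
    quad (bord a l R) (Fin.cons t x) = a * t ^ 2 + 2 * t * (l ⬝ᵥ x) + quad R x := by
  simp only [quad, dotProduct, Matrix.mulVec, Fin.sum_univ_succ, Fin.cons_zero, Fin.cons_succ,
    bord_zero_zero, bord_zero_succ, bord_succ_zero, bord_succ_succ, mul_add, sum_add_distrib]
  have e : ∑ i, x i * (l i * t) = t * ∑ i, l i * x i := by
    rw [mul_sum]
    exact sum_congr rfl fun i _ => by ring
  rw [e]
  ring

theorem posDef_iff_quad {P : Matrix (Fin n) (Fin n) ℝ} :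
    P.PosDef ↔ P.IsSymm ∧ ∀ x, x ≠ 0 → 0 < quad P x := by
  rw [posDef_iff_dotProduct_mulVec]
  simp [Matrix.IsHermitian, Matrix.IsSymm, quad, conjTranspose_eq_transpose_of_trivial]

theorem quad_nonneg {P : Matrix (Fin n) (Fin n) ℝ} (hP : P.PosDef) (x : Fin n → ℝ) :
    0 ≤ quad P x := by
  rcases eq_or_ne x 0 with rfl | hx
  · simp [quad]
  · exact ((posDef_iff_quad.1 hP).2 x hx).le

theorem sq_le_quad_mul {P : Matrix (Fin n) (Fin n) ℝ} (hP : P.PosDef) (i : Fin n)
    (x : Fin n → ℝ) : x i ^ 2 ≤ quad P x * P⁻¹ i i := by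
  obtain ⟨hsymm, hpos⟩ := posDef_iff_quad.1 hP
  obtain ⟨w, hw⟩ : ∃ w, w = P⁻¹ *ᵥ Pi.single i 1 := ⟨_, rfl⟩
  have hPw : P *ᵥ w = Pi.single i 1 := by
    rw [hw, Matrix.mulVec_mulVec, mul_nonsing_inv _ (isUnit_iff_ne_zero.2 hP.det_pos.ne'),
      Matrix.one_mulVec]
  have hwi : w i = P⁻¹ i i := by simp [hw]
  have hw0 : w ≠ 0 := fun h => by
    have := congrFun (hPw.symm.trans (by rw [h, Matrix.mulVec_zero])) i
    simp at this
  have hq : quad P w = w i := by rw [quad, hPw, dotProduct_single, mul_one]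
  have hwpos : 0 < w i := hq ▸ hpos w hw0
  obtain ⟨t, ht⟩ : ∃ t, t = x i / w i := ⟨_, rfl⟩
  have hxw : x ⬝ᵥ (P *ᵥ w) = x i := by rw [hPw, dotProduct_single, mul_one]
  have hwx : w ⬝ᵥ (P *ᵥ x) = x i := by
    rw [Matrix.dotProduct_mulVec, ← Matrix.mulVec_transpose, hsymm.eq, dotProduct_comm, hxw]
  have h := quad_nonneg hP (x - t • w)
  have e : quad P (x - t • w) = quad P x - 2 * t * x i + t ^ 2 * w i := by
    simp only [quad, Matrix.mulVec_sub, Matrix.mulVec_smul, sub_dotProduct, dotProduct_sub,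
      smul_dotProduct, dotProduct_smul, smul_eq_mul, hxw, hwx]
    rw [show w ⬝ᵥ (P *ᵥ w) = w i from hq]
    ring
  rw [e, ht] at h
  rw [← hwi]
  field_simp at h
  nlinarith

theorem exists_minimum {P : Matrix (Fin (n + 1)) (Fin (n + 1)) ℝ} (hP : P.PosDef) :
    ∃ v : Fin (n + 1) → ℤ, v ≠ 0 ∧
      ∀ w : Fin (n + 1) → ℤ, w ≠ 0 → quad P (fun i => (v i : ℝ)) ≤ quad P fun i => (w i : ℝ) := by
  classical
  obtain ⟨v₀, hv₀⟩ : ∃ v₀ : Fin (n + 1) → ℤ, v₀ ≠ 0 := ⟨1, one_ne_zero⟩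
  obtain ⟨M, hM⟩ : ∃ M, M = quad P fun i => (v₀ i : ℝ) := ⟨_, rfl⟩
  obtain ⟨N, hN⟩ : ∃ N : ℕ, ∀ i, M * P⁻¹ i i ≤ N := by
    obtain ⟨N, hN⟩ := exists_nat_ge (∑ i, |M * P⁻¹ i i|)
    exact ⟨N, fun i => (le_abs_self _).trans ((single_le_sum
      (f := fun i => |M * P⁻¹ i i|) (fun i _ => abs_nonneg _) (mem_univ i)).trans hN)⟩
  obtain ⟨S, hS⟩ : ∃ S, S = (Fintype.piFinset fun _ : Fin (n + 1) => Finset.Icc (-(N : ℤ)) N).filter
      fun w => w ≠ 0 ∧ quad P (fun i => (w i : ℝ)) ≤ M := ⟨_, rfl⟩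
  have hmem : ∀ w : Fin (n + 1) → ℤ, w ≠ 0 → quad P (fun i => (w i : ℝ)) ≤ M → w ∈ S := by
    intro w hw hle
    rw [hS, mem_filter, Fintype.mem_piFinset]
    refine ⟨fun i => ?_, hw, hle⟩
    have h := sq_le_quad_mul hP i fun j => (w j : ℝ)
    have hd : 0 ≤ P⁻¹ i i := hP.inv.diag_pos.le
    have h' : ((w i : ℝ)) ^ 2 ≤ N := h.trans ((mul_le_mul_of_nonneg_right hle hd).trans (hN i))
    have h2 : w i ^ 2 ≤ (N : ℤ) := by exact_mod_cast h'
    have h3 := Int.natAbs_le_self_sq (w i)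
    rw [Finset.mem_Icc]
    omega
  obtain ⟨v, hv, hmin⟩ := S.exists_min_image (fun w => quad P fun i => (w i : ℝ))
    ⟨v₀, hmem v₀ hv₀ hM.ge⟩
  have hv' := hv
  rw [hS, mem_filter] at hv'
  refine ⟨v, hv'.2.1, fun w hw => ?_⟩
  by_cases h : quad P (fun i => (w i : ℝ)) ≤ M
  · exact hmin w (hmem w hw h)
  · exact hv'.2.2.trans (not_le.1 h).le

theorem map_congr_int (A U : Matrix (Fin n) (Fin n) ℤ) :
    (Uᵀ * A * U).map (fun z : ℤ => (z : ℝ)) =
      (U.map fun z : ℤ => (z : ℝ))ᵀ * A.map (fun z : ℤ => (z : ℝ)) *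
        U.map fun z : ℤ => (z : ℝ) := by
  ext i j
  simp [Matrix.mul_apply]

theorem mulVec_injective_of_isUnit_det {U : Matrix (Fin n) (Fin n) ℝ} (h : IsUnit U.det) :
    Function.Injective U.mulVec :=
  mulVec_injective_of_isUnit ((isUnit_iff_isUnit_det U).2 h)

/-- **Hermite's inequality.** -/
theorem exists_short_vector : ∀ (n : ℕ) (P : Matrix (Fin (n + 1)) (Fin (n + 1)) ℝ), P.PosDef →
    ∃ v : Fin (n + 1) → ℤ, v ≠ 0 ∧
      quad P (fun i => (v i : ℝ)) ^ (2 * (n + 1)) ≤ (4 / 3 : ℝ) ^ (n * (n + 1)) * P.det ^ 2 := by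
  intro n
  induction n with
  | zero =>
    intro P hP
    refine ⟨fun _ => 1, fun h => one_ne_zero (congrFun h 0), le_of_eq ?_⟩
    simp [quad, dotProduct, Matrix.mulVec]
  | succ n ih =>
    intro P hP
    obtain ⟨v, hv, hmin⟩ := exists_minimum hP
    obtain ⟨m, hm⟩ : ∃ m, m = quad P fun i => (v i : ℝ) := ⟨_, rfl⟩
    refine ⟨v, hv, ?_⟩
    rw [← hm]
    have hm0 : 0 < m := hm ▸ (posDef_iff_quad.1 hP).2 _
      fun h => hv (funext fun i => by simpa using congrFun h i)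
    have hprim : Primitive v := by
      obtain ⟨g, w, hg, hw, rfl⟩ := exists_primitive_smul hv
      have hw0 : w ≠ 0 := fun h => hv (by rw [h, smul_zero])
      have h := hmin w hw0
      have e : quad P (fun i => ((g • w) i : ℝ)) = (g : ℝ) ^ 2 * quad P fun i => (w i : ℝ) := by
        rw [show (fun i => ((g • w) i : ℝ)) = (g : ℝ) • fun i => (w i : ℝ) by
          funext i; simp, quad, quad, Matrix.mulVec_smul, smul_dotProduct, dotProduct_smul]
        simp [smul_eq_mul]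
        ring
      rw [e] at h
      have hpos : 0 < quad P fun i => (w i : ℝ) := (posDef_iff_quad.1 hP).2 _
        fun h => hw0 (funext fun i => by simpa using congrFun h i)
      have hg1 : ((g ^ 2 : ℤ) : ℝ) ≤ ((1 : ℤ) : ℝ) := by
        push_cast
        exact le_of_mul_le_mul_right (by simpa using h) hpos
      have hg2 : IsUnit g := by
        rw [Int.isUnit_iff]
        have h' := Int.cast_le.1 hg1
        have : g ≤ 1 ∧ -1 ≤ g := ⟨by nlinarith, by nlinarith⟩
        omega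
      intro e' he
      exact hw e' fun i => by
        have := he i
        rw [Pi.smul_apply, smul_eq_mul] at this
        exact (IsUnit.dvd_mul_left hg2).1 this
    obtain ⟨U, hU, hUcol⟩ := exists_unimodular_col hprim
    obtain ⟨W, hW⟩ : ∃ W, W = U.map fun z : ℤ => (z : ℝ) := ⟨_, rfl⟩
    have hWdet : W.det = (U.det : ℝ) := by
      rw [hW]
      exact ((Int.castRingHom ℝ).map_det U).symm
    have hWsq : W.det ^ 2 = 1 := by
      rw [hWdet]
      rcases Int.isUnit_iff.1 hU with h | h <;> simp [h]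
    have hWu : IsUnit W.det := isUnit_iff_ne_zero.2 fun h => by simp [h] at hWsq
    obtain ⟨P', hP'⟩ : ∃ P', P' = Wᵀ * P * W := ⟨_, rfl⟩
    have hP'pos : P'.PosDef := by
      rw [hP', ← conjTranspose_eq_transpose_of_trivial]
      exact hP.conjTranspose_mul_mul_same (mulVec_injective_of_isUnit_det hWu)
    have hdet : P'.det ^ 2 = P.det ^ 2 := by
      rw [hP', det_mul, det_mul, det_transpose, mul_pow, mul_pow, hWsq, one_mul, mul_one]
    have h00 : P' 0 0 = m := by
      rw [hP', congr_apply_zero, hm, quad]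
      simp [hW, hUcol]
    obtain ⟨l, hl⟩ : ∃ l : Fin (n + 1) → ℝ, l = fun j => P' 0 j.succ := ⟨_, rfl⟩
    obtain ⟨R, hR⟩ : ∃ R, R = P'.submatrix Fin.succ Fin.succ := ⟨_, rfl⟩
    have hbord : P' = bord m l R := by
      rw [← h00, hl, hR]
      exact bord_eq (posDef_iff_quad.1 hP'pos).1
    obtain ⟨S, hS⟩ : ∃ S, S = R - m⁻¹ • vecMulVec l l := ⟨_, rfl⟩
    have hsplit : ∀ t x, quad P' (Fin.cons t x) = m * (t + (l ⬝ᵥ x) / m) ^ 2 + quad S x := by
      intro t x
      have e : quad S x = quad R x - (l ⬝ᵥ x) ^ 2 / m := by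
        simp only [hS, quad, Matrix.sub_mulVec, Matrix.smul_mulVec, vecMulVec_mulVec,
          dotProduct_sub, dotProduct_smul, op_smul_eq_smul, smul_eq_mul, dotProduct_comm x l]
        ring
      rw [hbord, quad_bord, e]
      field_simp
      ring
    have hSpos : S.PosDef := by
      refine posDef_iff_quad.2 ⟨?_, fun x hx => ?_⟩
      · ext i j
        simp only [hS, transpose_apply, Matrix.sub_apply, Matrix.smul_apply, vecMulVec_apply, hR,
          submatrix_apply, smul_eq_mul]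
        rw [(posDef_iff_quad.1 hP'pos).1.apply, mul_comm (l i)]
      · have h := (posDef_iff_quad.1 hP'pos).2 (Fin.cons (-(l ⬝ᵥ x) / m) x)
          fun h => hx (funext fun i => by simpa using congrFun h i.succ)
        rw [hsplit, show -(l ⬝ᵥ x) / m + (l ⬝ᵥ x) / m = 0 by ring] at h
        simpa using h
    have hdetS : P'.det = m * S.det := by
      have e := pow_mul_det_bord m l R
      rw [show m • R - vecMulVec l l = m • S by
        rw [hS, smul_sub, smul_smul, mul_inv_cancel₀ hm0.ne', one_smul], det_smul,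
        Fintype.card_fin, ← hbord] at e
      exact mul_left_cancel₀ (pow_ne_zero (n + 1) hm0.ne') (by rw [e]; ring)
    obtain ⟨w, hw, hwle⟩ := ih S hSpos
    obtain ⟨z, hz⟩ : ∃ z : ℤ, z = -round ((l ⬝ᵥ fun i => (w i : ℝ)) / m) := ⟨_, rfl⟩
    have hz2 : ((z : ℝ) + (l ⬝ᵥ fun i => (w i : ℝ)) / m) ^ 2 ≤ 1 / 4 := by
      have := abs_le.1 (abs_sub_round ((l ⬝ᵥ fun i => (w i : ℝ)) / m))
      rw [hz]
      push_cast
      nlinarith
    have hne : U *ᵥ Fin.cons z w ≠ 0 := by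
      intro h
      refine hw (funext fun i => ?_)
      have h2 : Fin.cons z w = (0 : Fin (n + 1 + 1) → ℤ) := mulVec_injective_of_isUnit
        ((isUnit_iff_isUnit_det U).2 hU) (by rw [h, Matrix.mulVec_zero])
      simpa using congrFun h2 i.succ
    have hlow := hmin _ hne
    rw [← hm] at hlow
    have hcast : (fun i => ((U *ᵥ Fin.cons z w) i : ℝ)) =
        W *ᵥ Fin.cons (z : ℝ) fun i => (w i : ℝ) := by
      funext i
      simp [hW, Matrix.mulVec, dotProduct, Fin.sum_univ_succ]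
    rw [hcast, ← quad_congr, ← hP', hsplit] at hlow
    have h34 : 3 / 4 * m ≤ quad S fun i => (w i : ℝ) := by
      nlinarith [mul_le_mul_of_nonneg_left hz2 hm0.le]
    have hpow := (pow_le_pow_left₀ (by positivity) h34 (2 * (n + 1))).trans hwle
    have key : m ^ (2 * (n + 1 + 1)) ≤
        (4 / 3 : ℝ) ^ ((n + 1) * (n + 1 + 1)) * (m * S.det) ^ 2 := by
      have h2 := mul_le_mul_of_nonneg_left hpow
        (show (0 : ℝ) ≤ (4 / 3 : ℝ) ^ (2 * (n + 1)) * m ^ 2 by positivity)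
      have e1 : (4 / 3 : ℝ) ^ (2 * (n + 1)) * m ^ 2 * (3 / 4 * m) ^ (2 * (n + 1)) =
          m ^ (2 * (n + 1 + 1)) := by
        rw [mul_pow, show (3 / 4 : ℝ) = (4 / 3)⁻¹ by norm_num, inv_pow]
        field_simp
        ring
      rw [e1] at h2
      refine h2.trans (le_of_eq ?_)
      rw [show (n + 1) * (n + 1 + 1) = 2 * (n + 1) + n * (n + 1) by ring, pow_add]
      ring
    rwa [← hdetS, hdet] at key

/-- **The majorant.** -/
theorem exists_majorant {A : Matrix (Fin n) (Fin n) ℝ} (hA : A.IsSymm) (hd : A.det ≠ 0) :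
    ∃ P : Matrix (Fin n) (Fin n) ℝ, P.PosDef ∧ P.det = |A.det| ∧ ∀ x, |quad A x| ≤ quad P x := by
  have hH : A.IsHermitian := by
    rw [Matrix.IsHermitian, conjTranspose_eq_transpose_of_trivial]
    exact hA
  obtain ⟨U, hU⟩ : ∃ U, U = (hH.eigenvectorUnitary : Matrix (Fin n) (Fin n) ℝ) := ⟨_, rfl⟩
  obtain ⟨ev, hev⟩ : ∃ ev, ev = hH.eigenvalues := ⟨_, rfl⟩
  have hUU : Uᵀ * U = 1 := by
    rw [hU, ← conjTranspose_eq_transpose_of_trivial]
    exact Unitary.star_mul_self_of_mem hH.eigenvectorUnitary.2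
  have hAeq : A = Uᵀᵀ * diagonal ev * Uᵀ := by
    conv_lhs => rw [hH.spectral_theorem]
    rw [Unitary.conjStarAlgAut_apply, hU, hev, transpose_transpose, star_eq_conjTranspose,
      conjTranspose_eq_transpose_of_trivial]
    rfl
  have hval : ∀ d : Fin n → ℝ, ∀ x,
      quad (Uᵀᵀ * diagonal d * Uᵀ) x = ∑ i, d i * (Uᵀ *ᵥ x) i ^ 2 := fun d x => by
    rw [quad_congr, quad, dotProduct]
    refine sum_congr rfl fun i _ => ?_
    rw [Matrix.mulVec_diagonal]
    ring
  have hev0 : ∀ i, ev i ≠ 0 := by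
    have h := hH.det_eq_prod_eigenvalues
    rw [← hev] at h
    exact fun i hi => hd (h.trans (prod_eq_zero (mem_univ i) (by simp [hi])))
  refine ⟨Uᵀᵀ * diagonal (fun i => |ev i|) * Uᵀ, posDef_iff_quad.2 ⟨?_, fun x hx => ?_⟩, ?_,
    fun x => ?_⟩
  · simp [Matrix.IsSymm, Matrix.transpose_mul, Matrix.mul_assoc]
  · rw [hval]
    have hy : Uᵀ *ᵥ x ≠ 0 := fun h => hx (by
      have h' := congrArg (U *ᵥ ·) h
      simp only [Matrix.mulVec_mulVec, Matrix.mulVec_zero] at h'
      rwa [mul_eq_one_comm.1 hUU, Matrix.one_mulVec] at h')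
    obtain ⟨i, hi⟩ := Function.ne_iff.1 hy
    refine sum_pos' (fun j _ => by positivity) ⟨i, mem_univ i, ?_⟩
    exact mul_pos (abs_pos.2 (hev0 i)) (pow_two_pos_of_ne_zero hi)
  · have hu : U.det * U.det = 1 := by
      have h := congrArg Matrix.det hUU
      rwa [det_mul, det_transpose, det_one] at h
    conv_rhs => rw [hAeq]
    simp only [det_mul, det_transpose, det_diagonal, abs_mul, abs_prod]
    rw [mul_comm U.det, mul_assoc, hu, mul_one, mul_comm |U.det|, mul_assoc, ← abs_mul, hu, abs_one,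
      mul_one]
  · conv_lhs => rw [hAeq]
    rw [hval, hval]
    refine (abs_sum_le_sum_abs _ _).trans (le_of_eq (sum_congr rfl fun i _ => ?_))
    rw [abs_mul, abs_pow, sq_abs]

end FA.Reduction
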