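import Mathlib.Data.Matrix.Block
import Mathlib.LinearAlgebra.Basis.Fin
import Mathlib.LinearAlgebra.FreeModule.PID
import Mathlib.LinearAlgebra.Matrix.Basis
import Mathlib.LinearAlgebra.Matrix.Determinant.Basic
import Mathlib.LinearAlgebra.Matrix.NonsingularInverse
import Mathlib.LinearAlgebra.Matrix.Symmetric
import Mathlib.RingTheory.PrincipalIdealDomain
import Mathlib.Tactic

/-!
# Bordered matrices and integral equivalence

`bord a l R` is the symmetric matrix with first entry `a`, first row `l` and minor `R`. Two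
matrices are congruent when a matrix of unit determinant carries one to the other; a primitive
integer vector is a first column of such a matrix.
-/

set_option autoImplicit false
set_option linter.unusedSectionVars false

noncomputable section

namespace FA.Reduction

open Matrix Finset

variable {K : Type*} [CommRing K] {n : ℕ}

/-- The bordered matrix `(a l; l R)`. -/
def bord (a : K) (l : Fin n → K) (R : Matrix (Fin n) (Fin n) K) :
    Matrix (Fin (n + 1)) (Fin (n + 1)) K :=
  Matrix.of (Fin.cons (Fin.cons a l) fun i => Fin.cons (l i) (R i))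

/-- The shear of the first coordinate by `k`. -/
def shearBy (k : Fin n → K) : Matrix (Fin (n + 1)) (Fin (n + 1)) K :=
  Matrix.of (Fin.cons (Fin.cons 1 k) fun i => Fin.cons 0 ((1 : Matrix (Fin n) (Fin n) K) i))

@[simp] theorem bord_zero_zero (a : K) (l : Fin n → K) (R : Matrix (Fin n) (Fin n) K) :
    bord a l R 0 0 = a := rfl

@[simp] theorem bord_zero_succ (a : K) (l : Fin n → K) (R : Matrix (Fin n) (Fin n) K) (j : Fin n) :
    bord a l R 0 j.succ = l j := rfl

@[simp] theorem bord_succ_zero (a : K) (l : Fin n → K) (R : Matrix (Fin n) (Fin n) K) (i : Fin n) :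
    bord a l R i.succ 0 = l i := rfl

@[simp] theorem bord_succ_succ (a : K) (l : Fin n → K) (R : Matrix (Fin n) (Fin n) K)
    (i j : Fin n) : bord a l R i.succ j.succ = R i j := rfl

@[simp] theorem shearBy_zero_zero (k : Fin n → K) : shearBy k 0 0 = 1 := rfl

@[simp] theorem shearBy_zero_succ (k : Fin n → K) (j : Fin n) : shearBy k 0 j.succ = k j := rfl

@[simp] theorem shearBy_succ_zero (k : Fin n → K) (i : Fin n) : shearBy k i.succ 0 = 0 := rfl

@[simp] theorem shearBy_succ_succ (k : Fin n → K) (i j : Fin n) :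
    shearBy k i.succ j.succ = (1 : Matrix (Fin n) (Fin n) K) i j := rfl

theorem bord_eq {A : Matrix (Fin (n + 1)) (Fin (n + 1)) K} (hA : A.IsSymm) :
    A = bord (A 0 0) (fun j => A 0 j.succ) (A.submatrix Fin.succ Fin.succ) := by
  ext i j
  refine Fin.cases ?_ (fun i => ?_) i <;> refine Fin.cases ?_ (fun j => ?_) j <;> simp
  exact hA.apply _ _

theorem bord_isSymm {a : K} {l : Fin n → K} {R : Matrix (Fin n) (Fin n) K} (hR : R.IsSymm) :
    (bord a l R).IsSymm := by
  ext i j
  refine Fin.cases ?_ (fun i => ?_) i <;> refine Fin.cases ?_ (fun j => ?_) j <;> simp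
  exact hR.apply _ _

theorem isSymm_of_bord {a : K} {l : Fin n → K} {R : Matrix (Fin n) (Fin n) K}
    (h : (bord a l R).IsSymm) : R.IsSymm := by
  ext i j
  simpa using h.apply i.succ j.succ

theorem det_succ_of_row {A : Matrix (Fin (n + 1)) (Fin (n + 1)) K}
    (h : ∀ j : Fin n, A 0 j.succ = 0) :
    A.det = A 0 0 * (A.submatrix Fin.succ Fin.succ).det := by
  rw [det_succ_row_zero, Fin.sum_univ_succ]
  simp [h]

theorem det_succ_of_col {A : Matrix (Fin (n + 1)) (Fin (n + 1)) K}
    (h : ∀ i : Fin n, A i.succ 0 = 0) :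
    A.det = A 0 0 * (A.submatrix Fin.succ Fin.succ).det := by
  rw [det_succ_column_zero, Fin.sum_univ_succ]
  simp [h]

@[simp] theorem det_shearBy (k : Fin n → K) : (shearBy k).det = 1 := by
  rw [det_succ_of_col fun i => shearBy_succ_zero k i, shearBy_zero_zero, one_mul]
  have : (shearBy k).submatrix Fin.succ Fin.succ = 1 := by
    ext i j
    simp
  rw [this, det_one]

theorem det_bord_zero (a : K) (R : Matrix (Fin n) (Fin n) K) : (bord a 0 R).det = a * R.det := by
  rw [det_succ_of_row fun j => by simp, bord_zero_zero]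
  congr 2

/-- `a ^ n det (a l; l R) = a det (a R - l l)`: the square completed without division. -/
theorem pow_mul_det_bord (a : K) (l : Fin n → K) (R : Matrix (Fin n) (Fin n) K) :
    a ^ n * (bord a l R).det = a * (a • R - vecMulVec l l).det := by
  obtain ⟨M, hM⟩ : ∃ M : Matrix (Fin (n + 1)) (Fin (n + 1)) K,
      M = Matrix.of (Fin.cons (Fin.cons 1 (-l)) fun i =>
        Fin.cons 0 ((a • (1 : Matrix (Fin n) (Fin n) K)) i)) := ⟨_, rfl⟩
  have hMdet : M.det = a ^ n := by
    rw [det_succ_of_col fun i => by rw [hM]; rfl,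
      show M 0 0 = 1 by rw [hM]; rfl, one_mul]
    have : M.submatrix Fin.succ Fin.succ = a • (1 : Matrix (Fin n) (Fin n) K) := by
      rw [hM]; rfl
    rw [this, det_smul, det_one, Fintype.card_fin, mul_one]
  have hprod : (bord a l R * M).det = a * (a • R - vecMulVec l l).det := by
    have h0 : ∀ j : Fin n, (bord a l R * M) 0 j.succ = 0 := fun j => by
      simp [Matrix.mul_apply, Fin.sum_univ_succ, hM, Matrix.one_apply]
      ring
    rw [det_succ_of_row h0]
    have h1 : (bord a l R * M) 0 0 = a := by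
      simp [Matrix.mul_apply, Fin.sum_univ_succ, hM]
    have h2 : (bord a l R * M).submatrix Fin.succ Fin.succ = a • R - vecMulVec l l := by
      ext i j
      simp [Matrix.mul_apply, Fin.sum_univ_succ, hM, Matrix.one_apply, vecMulVec_apply]
      ring
    rw [h1, h2]
  rw [← hprod, det_mul, hMdet, mul_comm]

theorem shear_congr (a : K) (l k : Fin n → K) (R : Matrix (Fin n) (Fin n) K) :
    (shearBy k)ᵀ * bord a l R * shearBy k =
      bord a (l + a • k) (R + vecMulVec l k + vecMulVec k l + a • vecMulVec k k) := by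
  ext i j
  refine Fin.cases ?_ (fun i => ?_) i <;> refine Fin.cases ?_ (fun j => ?_) j <;>
    simp [Matrix.mul_apply, Fin.sum_univ_succ, Matrix.one_apply, vecMulVec_apply] <;> ring

theorem det_bord_one (V : Matrix (Fin n) (Fin n) K) : (bord 1 0 V).det = V.det := by
  rw [det_bord_zero, one_mul]

theorem block_congr (a : K) (l : Fin n → K) (R V : Matrix (Fin n) (Fin n) K) :
    (bord 1 0 V)ᵀ * bord a l R * bord 1 0 V = bord a (Vᵀ *ᵥ l) (Vᵀ * R * V) := by
  ext i j
  refine Fin.cases ?_ (fun i => ?_) i <;> refine Fin.cases ?_ (fun j => ?_) j <;>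
    simp [Matrix.mul_apply, Fin.sum_univ_succ, Matrix.mulVec, dotProduct, mul_comm]

/-- Congruence by a matrix of unit determinant. -/
def Congr (A B : Matrix (Fin n) (Fin n) K) : Prop :=
  ∃ U : Matrix (Fin n) (Fin n) K, IsUnit U.det ∧ B = Uᵀ * A * U

theorem Congr.refl (A : Matrix (Fin n) (Fin n) K) : Congr A A := ⟨1, by simp, by simp⟩

theorem Congr.trans {A B C : Matrix (Fin n) (Fin n) K} (h : Congr A B) (h' : Congr B C) :
    Congr A C := by
  obtain ⟨U, hU, rfl⟩ := h
  obtain ⟨V, hV, rfl⟩ := h'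
  exact ⟨U * V, by rw [det_mul]; exact hU.mul hV, by simp [Matrix.transpose_mul, Matrix.mul_assoc]⟩

theorem Congr.symm {A B : Matrix (Fin n) (Fin n) K} (h : Congr A B) : Congr B A := by
  obtain ⟨U, hU, rfl⟩ := h
  refine ⟨U⁻¹, isUnit_nonsing_inv_det _ hU, ?_⟩
  rw [Matrix.transpose_nonsing_inv, show Uᵀ⁻¹ * (Uᵀ * A * U) * U⁻¹ = (Uᵀ⁻¹ * Uᵀ) * A * (U * U⁻¹) by
    simp [Matrix.mul_assoc], nonsing_inv_mul _ (by rwa [det_transpose]), mul_nonsing_inv _ hU,
    Matrix.one_mul, Matrix.mul_one]

theorem Congr.isSymm {A B : Matrix (Fin n) (Fin n) K} (h : Congr A B) (hA : A.IsSymm) :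
    B.IsSymm := by
  obtain ⟨U, -, rfl⟩ := h
  rw [Matrix.IsSymm, Matrix.transpose_mul, Matrix.transpose_mul, transpose_transpose, hA.eq,
    Matrix.mul_assoc]

theorem congr_shear (a : K) (l k : Fin n → K) (R : Matrix (Fin n) (Fin n) K) :
    Congr (bord a l R)
      (bord a (l + a • k) (R + vecMulVec l k + vecMulVec k l + a • vecMulVec k k)) :=
  ⟨shearBy k, by simp, (shear_congr a l k R).symm⟩

theorem congr_block (a : K) (l : Fin n → K) (R : Matrix (Fin n) (Fin n) K)
    {V : Matrix (Fin n) (Fin n) K} (hV : IsUnit V.det) :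
    Congr (bord a l R) (bord a (Vᵀ *ᵥ l) (Vᵀ * R * V)) :=
  ⟨bord 1 0 V, by rwa [det_bord_one], (block_congr a l R V).symm⟩

theorem Congr.det_eq_of_int {A B : Matrix (Fin n) (Fin n) ℤ} (h : Congr A B) : B.det = A.det := by
  obtain ⟨U, hU, rfl⟩ := h
  rw [det_mul, det_mul, det_transpose]
  rcases Int.isUnit_iff.1 hU with e | e <;> rw [e] <;> ring

/-- A vector is primitive when its entries have no common divisor but units. -/
def Primitive (v : Fin n → ℤ) : Prop := ∀ g : ℤ, (∀ i, g ∣ v i) → IsUnit g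

theorem exists_primitive_smul {v : Fin n → ℤ} (hv : v ≠ 0) :
    ∃ (g : ℤ) (w : Fin n → ℤ), g ≠ 0 ∧ Primitive w ∧ v = g • w := by
  obtain ⟨g, hg⟩ := IsPrincipalIdealRing.principal (Ideal.span (Set.range v))
  change Ideal.span (Set.range v) = Ideal.span {g} at hg
  have hdvd : ∀ i, g ∣ v i := fun i => by
    rw [← Ideal.mem_span_singleton, ← hg]
    exact Ideal.subset_span ⟨i, rfl⟩
  have hg0 : g ≠ 0 := fun h => hv (funext fun i => by simpa [h] using hdvd i)
  choose w hw using hdvd
  refine ⟨g, w, hg0, fun e he => ?_, funext hw⟩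
  have hge : g * e ∣ g := by
    rw [← Ideal.mem_span_singleton]
    have hmem : g ∈ Ideal.span (Set.range v) := hg ▸ Ideal.mem_span_singleton_self g
    refine Ideal.span_le.2 ?_ hmem
    rintro _ ⟨i, rfl⟩
    rw [SetLike.mem_coe, Ideal.mem_span_singleton, hw i]
    exact mul_dvd_mul_left g (he i)
  exact isUnit_iff_dvd_one.2 ((mul_dvd_mul_iff_left hg0).1 (by rwa [mul_one]))

/-- **A primitive vector is the first column of a unimodular matrix.** -/
theorem exists_unimodular_col {v : Fin (n + 1) → ℤ} (hv : Primitive v) :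
    ∃ U : Matrix (Fin (n + 1)) (Fin (n + 1)) ℤ, IsUnit U.det ∧ ∀ i, U i 0 = v i := by
  obtain ⟨g, hg⟩ := IsPrincipalIdealRing.principal (Ideal.span (Set.range v))
  change Ideal.span (Set.range v) = Ideal.span {g} at hg
  have hu : IsUnit g := hv g fun i => by
    rw [← Ideal.mem_span_singleton, ← hg]
    exact Ideal.subset_span ⟨i, rfl⟩
  have h1 : (1 : ℤ) ∈ Ideal.span (Set.range v) := by
    rw [hg, Ideal.mem_span_singleton]
    exact hu.dvd
  obtain ⟨c, hc⟩ := (Submodule.mem_span_range_iff_exists_fun ℤ).1 h1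
  simp only [smul_eq_mul] at hc
  obtain ⟨φ, hφ⟩ : ∃ φ : (Fin (n + 1) → ℤ) →ₗ[ℤ] ℤ, ∀ z, φ z = ∑ i, c i * z i :=
    ⟨∑ i, c i • LinearMap.proj i, fun z => by simp⟩
  have hφv : φ v = 1 := (hφ v).trans hc
  obtain ⟨m, b⟩ := Submodule.basisOfPid (Pi.basisFun ℤ (Fin (n + 1))) (LinearMap.ker φ)
  obtain ⟨B, hB⟩ : ∃ B : Module.Basis (Fin (m + 1)) ℤ (Fin (n + 1) → ℤ), B 0 = v := by
    refine ⟨Module.Basis.mkFinCons v b (fun e x hx he => ?_) (fun z => ⟨-φ z, ?_⟩), ?_⟩
    · have h := congrArg φ he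
      rw [map_add, map_smul, hφv, LinearMap.mem_ker.1 hx, map_zero] at h
      simpa using h
    · rw [LinearMap.mem_ker, map_add, map_smul, hφv]
      simp
    · rw [Module.Basis.coe_mkFinCons, Fin.cons_zero]
  obtain rfl : m = n := by
    have h := Fintype.card_congr (B.indexEquiv (Pi.basisFun ℤ (Fin (n + 1))))
    simpa using h
  refine ⟨(Pi.basisFun ℤ (Fin (m + 1))).toMatrix B, ?_, fun i => ?_⟩
  · refine IsUnit.of_mul_eq_one (B.toMatrix (Pi.basisFun ℤ (Fin (m + 1)))).det ?_
    rw [← det_mul, Module.Basis.toMatrix_mul_toMatrix_flip, det_one]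
  · rw [Module.Basis.toMatrix_apply, hB, Pi.basisFun_repr]

theorem congr_apply_zero (A U : Matrix (Fin (n + 1)) (Fin (n + 1)) K) :
    (Uᵀ * A * U) 0 0 = (fun i => U i 0) ⬝ᵥ (A *ᵥ fun i => U i 0) := by
  simp only [Matrix.mul_apply, Matrix.transpose_apply, dotProduct, Matrix.mulVec, mul_sum, sum_mul]
  rw [sum_comm]
  exact sum_congr rfl fun i _ => sum_congr rfl fun j _ => mul_assoc _ _ _

end FA.Reduction
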