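import Fermat.Agent.Reduction.Hermite

/-!
# Finiteness of the classes of integral forms

For every `n` and `d ≠ 0` there are finitely many classes of symmetric integer matrices of size
`n` and determinant `d`: a short primitive vector becomes the first basis vector, and the rest is
bounded by induction, separately for an anisotropic and for an isotropic first vector.
-/

set_option autoImplicit false

noncomputable section

namespace FA.Reduction

open Matrix Finset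

variable {n : ℕ}

/-- A short first column. -/
theorem exists_congr_small (n : ℕ) (d : ℤ) :
    ∃ C : ℕ, d ≠ 0 → ∀ A : Matrix (Fin (n + 1)) (Fin (n + 1)) ℤ, A.IsSymm → A.det = d →
      ∃ B, Congr A B ∧ |B 0 0| ≤ C := by
  obtain ⟨C, hC⟩ := exists_nat_ge (max 1 ((4 / 3 : ℝ) ^ (n * (n + 1)) * (d : ℝ) ^ 2))
  refine ⟨C, fun hd A hA hdet => ?_⟩
  obtain ⟨A', hA'⟩ : ∃ A', A' = A.map fun z : ℤ => (z : ℝ) := ⟨_, rfl⟩
  have hdetR : A'.det = (d : ℝ) := by
    rw [hA', ← hdet]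
    exact ((Int.castRingHom ℝ).map_det A).symm
  obtain ⟨P, hP, hPdet, hmaj⟩ := exists_majorant (A := A') (by
    rw [hA', Matrix.IsSymm, ← Matrix.transpose_map, hA.eq]) (by
    rw [hdetR]
    exact_mod_cast hd)
  obtain ⟨v, hv, hle⟩ := exists_short_vector n P hP
  rw [hPdet, hdetR, sq_abs] at hle
  obtain ⟨g, w, hg, hw, rfl⟩ := exists_primitive_smul hv
  obtain ⟨U, hU, hcol⟩ := exists_unimodular_col hw
  refine ⟨Uᵀ * A * U, ⟨U, hU, rfl⟩, ?_⟩
  have e : ((Uᵀ * A * U) 0 0 : ℝ) = quad A' fun i => (w i : ℝ) := by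
    rw [congr_apply_zero]
    simp only [hcol, quad, hA', dotProduct, Matrix.mulVec, Matrix.map_apply, Int.cast_sum,
      Int.cast_mul]
  have hscale : quad P (fun i => ((g • w) i : ℝ)) = (g : ℝ) ^ 2 * quad P fun i => (w i : ℝ) := by
    rw [show (fun i => ((g • w) i : ℝ)) = (g : ℝ) • fun i => (w i : ℝ) by funext i; simp, quad,
      quad, Matrix.mulVec_smul, smul_dotProduct, dotProduct_smul]
    simp [smul_eq_mul]
    ring
  have hg2 : (1 : ℝ) ≤ (g : ℝ) ^ 2 := by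
    exact_mod_cast (show (1 : ℤ) ≤ g ^ 2 by nlinarith [sq_pos_of_ne_zero hg])
  obtain ⟨q, hq⟩ : ∃ q, q = quad P fun i => ((g • w) i : ℝ) := ⟨_, rfl⟩
  rw [← hq] at hle hscale
  have hw0 : 0 ≤ quad P fun i => (w i : ℝ) := quad_nonneg hP _
  have hqle : q ≤ C := by
    refine le_trans ?_ hC
    rcases le_total q 1 with h | h
    · exact h.trans (le_max_left _ _)
    · exact ((le_self_pow₀ h (by omega)).trans hle).trans (le_max_right _ _)
  have h : |((Uᵀ * A * U) 0 0 : ℝ)| ≤ C := by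
    rw [e]
    refine (hmaj _).trans (le_trans ?_ hqle)
    rw [hscale]
    exact le_mul_of_one_le_left hw0 hg2
  exact_mod_cast h

theorem det_bord_isotropic (g x : ℤ) (y : Fin n → ℤ) (R : Matrix (Fin n) (Fin n) ℤ) :
    (bord 0 (Fin.cons g 0) (bord x y R)).det = -(g * g * R.det) := by
  rw [det_succ_row_zero, Fin.sum_univ_succ, Fin.sum_univ_succ]
  simp only [bord_zero_zero, mul_zero, zero_mul, zero_add, bord_zero_succ, Fin.cons_zero,
    Fin.cons_succ, Pi.zero_apply, sum_const_zero, add_zero]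
  have hcol : ∀ i : Fin n,
      (bord 0 (Fin.cons g 0) (bord x y R)).submatrix Fin.succ (Fin.succ 0).succAbove i.succ 0 =
        0 := by
    intro i
    simp
  have h00 : (bord 0 (Fin.cons g 0) (bord x y R)).submatrix Fin.succ (Fin.succ 0).succAbove 0 0 =
      g := by
    rw [submatrix_apply, Fin.succAbove_ne_zero_zero (Fin.succ_ne_zero 0), bord_succ_zero,
      Fin.cons_zero]
  have hsub : ((bord 0 (Fin.cons g 0) (bord x y R)).submatrix Fin.succ
      (Fin.succ 0).succAbove).submatrix Fin.succ Fin.succ = R := by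
    ext i j
    simp
  rw [det_succ_of_col hcol, h00, hsub]
  simp
  ring

/-- The candidates with anisotropic first vector. -/
def anisoForms (C : ℕ) (F : ℤ → Finset (Matrix (Fin n) (Fin n) ℤ)) (d : ℤ) :
    Finset (Matrix (Fin (n + 1)) (Fin (n + 1)) ℤ) :=
  ((Finset.Icc (-(C : ℤ)) C).filter (· ≠ 0)).biUnion fun a => (F (a ^ n * d / a)).biUnion fun T =>
    (Fintype.piFinset fun _ : Fin n => Finset.Icc (0 : ℤ) C).image fun l =>
      bord a l (Matrix.of fun i j => (T i j + l i * l j) / a)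

/-- The candidates with isotropic first vector. -/
def isoForms (F : ℤ → Finset (Matrix (Fin n) (Fin n) ℤ)) (d : ℤ) :
    Finset (Matrix (Fin (n + 2)) (Fin (n + 2)) ℤ) :=
  (Finset.Icc (-|d|) |d|).biUnion fun g => (F (d / -(g * g))).biUnion fun R =>
    (Finset.Icc (0 : ℤ) (2 * |d|) ×ˢ Fintype.piFinset fun _ : Fin n => Finset.Icc (0 : ℤ) |d|).image
      fun z => bord 0 (Fin.cons g 0) (bord z.1 z.2 R)

/-- The forms with first entry `a ≠ 0`. -/
theorem exists_mem_aniso {C : ℕ} {F : ℤ → Finset (Matrix (Fin n) (Fin n) ℤ)} {d a : ℤ}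
    (hF : ∀ e, e ≠ 0 → ∀ T : Matrix (Fin n) (Fin n) ℤ, T.IsSymm → T.det = e →
      ∃ T' ∈ F e, Congr T T')
    (hd : d ≠ 0) (ha : a ≠ 0) (haC : |a| ≤ C) (l : Fin n → ℤ) (R : Matrix (Fin n) (Fin n) ℤ)
    (hR : R.IsSymm) (hdet : (bord a l R).det = d) :
    ∃ B ∈ anisoForms C F d, Congr (bord a l R) B := by
  obtain ⟨T, hT⟩ : ∃ T, T = a • R - vecMulVec l l := ⟨_, rfl⟩
  have hTdet : T.det = a ^ n * d / a := by
    rw [← hdet, pow_mul_det_bord, ← hT, Int.mul_ediv_cancel_left _ ha]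
  have hTsymm : T.IsSymm := by
    ext i j
    simp only [hT, transpose_apply, Matrix.sub_apply, Matrix.smul_apply, vecMulVec_apply,
      smul_eq_mul, hR.apply i j]
    ring
  have hT0 : a ^ n * d / a ≠ 0 := by
    intro h
    rw [← hTdet] at h
    refine mul_ne_zero (pow_ne_zero n ha) hd ?_
    rw [← hdet, pow_mul_det_bord, ← hT, h, mul_zero]
  obtain ⟨T', hT', V, hV, rfl⟩ := hF _ hT0 T hTsymm hTdet
  obtain ⟨l', hl'⟩ : ∃ l', l' = Vᵀ *ᵥ l := ⟨_, rfl⟩
  obtain ⟨R', hR'⟩ : ∃ R', R' = Vᵀ * R * V := ⟨_, rfl⟩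
  have hinv : Vᵀ * T * V = a • R' - vecMulVec l' l' := by
    rw [hT, hR', hl', Matrix.mul_sub, Matrix.sub_mul, Matrix.mul_smul, Matrix.smul_mul,
      Matrix.mul_vecMulVec, Matrix.vecMulVec_mul, Matrix.mulVec_transpose]
  obtain ⟨k, hk⟩ : ∃ k : Fin n → ℤ, k = fun j => -(l' j / a) := ⟨_, rfl⟩
  obtain ⟨R'', hR''⟩ : ∃ R'',
      R'' = R' + vecMulVec l' k + vecMulVec k l' + a • vecMulVec k k := ⟨_, rfl⟩
  have hmod : l' + a • k = fun j => l' j % a := by
    funext j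
    simp only [hk, Pi.add_apply, Pi.smul_apply, smul_eq_mul, Int.emod_def]
    ring
  refine ⟨bord a (fun j => l' j % a) R'', ?_, ?_⟩
  · simp only [anisoForms, mem_biUnion, mem_filter, Finset.mem_Icc, mem_image, Fintype.mem_piFinset]
    refine ⟨a, ⟨abs_le.1 haC, ha⟩, _, hT', fun j => l' j % a,
      fun j => ⟨Int.emod_nonneg _ ha, ?_⟩, ?_⟩
    · exact (Int.emod_lt_abs _ ha).le.trans haC
    · congr 1
      ext i j
      rw [Matrix.of_apply, hinv]
      have e : ∀ i, l' i % a = l' i + a * k i := fun i => (congrFun hmod i).symm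
      simp only [hR'', Matrix.sub_apply, Matrix.add_apply, Matrix.smul_apply, vecMulVec_apply,
        smul_eq_mul, e]
      refine Int.ediv_eq_of_eq_mul_left ha ?_
      ring
  · refine (congr_block a l R hV).trans ?_
    rw [← hl', ← hR', ← hmod, hR'']
    exact congr_shear a l' k R'

/-- The forms with first entry `0`. -/
theorem exists_mem_iso {F : ℤ → Finset (Matrix (Fin n) (Fin n) ℤ)} {d : ℤ}
    (hF : ∀ e, e ≠ 0 → ∀ T : Matrix (Fin n) (Fin n) ℤ, T.IsSymm → T.det = e →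
      ∃ T' ∈ F e, Congr T T')
    (hd : d ≠ 0) (l : Fin (n + 1) → ℤ) (R : Matrix (Fin (n + 1)) (Fin (n + 1)) ℤ)
    (hR : R.IsSymm) (hdet : (bord 0 l R).det = d) :
    ∃ B ∈ isoForms F d, Congr (bord 0 l R) B := by
  have hl : l ≠ 0 := fun h => hd (by rw [← hdet, h, det_bord_zero, zero_mul])
  obtain ⟨g, w, hg, hw, rfl⟩ := exists_primitive_smul hl
  obtain ⟨W, hW, hWcol⟩ := exists_unimodular_col hw
  obtain ⟨V, hV⟩ : ∃ V, V = (W⁻¹)ᵀ := ⟨_, rfl⟩
  have hVu : IsUnit V.det := by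
    rw [hV, det_transpose]
    exact isUnit_nonsing_inv_det _ hW
  have hVl : Vᵀ *ᵥ (g • w) = Fin.cons g 0 := by
    have e : W *ᵥ Fin.cons g 0 = g • w := by
      funext i
      simp [Matrix.mulVec, dotProduct, Fin.sum_univ_succ, hWcol, mul_comm]
    rw [hV, transpose_transpose, ← e, Matrix.mulVec_mulVec, nonsing_inv_mul _ hW, Matrix.one_mulVec]
  have h1 := congr_block 0 (g • w) R hVu
  rw [hVl] at h1
  have hsymm := Congr.isSymm ⟨V, hVu, rfl⟩ hR
  obtain ⟨R', hR'⟩ : ∃ R', R' = Vᵀ * R * V := ⟨_, rfl⟩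
  rw [← hR'] at h1 hsymm
  obtain ⟨x, y, R₂, hb⟩ : ∃ x y R₂, R' = bord x y R₂ := ⟨_, _, _, bord_eq hsymm⟩
  rw [hb] at h1 hsymm
  have hd2 : -(g * g * R₂.det) = d := by
    rw [← det_bord_isotropic g x y R₂, h1.det_eq_of_int, hdet]
  have hR2 : R₂.det = d / -(g * g) := by
    rw [← hd2, show -(g * g * R₂.det) = -(g * g) * R₂.det by ring,
      Int.mul_ediv_cancel_left _ (neg_ne_zero.2 (mul_ne_zero hg hg))]
  have hR20 : R₂.det ≠ 0 := fun h => hd (by rw [← hd2, h, mul_zero, neg_zero])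
  have hgd : |g| ≤ |d| := by
    have h2 : 1 ≤ |g| := Int.one_le_abs hg
    have h3 : 1 ≤ |R₂.det| := Int.one_le_abs hR20
    rw [← hd2, abs_neg, abs_mul, abs_mul]
    nlinarith [mul_le_mul h2 h3 zero_le_one (abs_nonneg g)]
  obtain ⟨T', hT', V₂, hV₂, rfl⟩ := hF _ (hR2 ▸ hR20) R₂ (isSymm_of_bord hsymm) hR2
  obtain ⟨y', hy'⟩ : ∃ y', y' = V₂ᵀ *ᵥ y := ⟨_, rfl⟩
  have h2 : Congr (bord 0 (Fin.cons g 0) (bord x y R₂))
      (bord 0 (Fin.cons g 0) (bord x y' (V₂ᵀ * R₂ * V₂))) := by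
    have h := congr_block (0 : ℤ) (Fin.cons g 0) (bord x y R₂) (V := bord 1 0 V₂)
      (by rwa [det_bord_one])
    have e : (bord 1 0 V₂)ᵀ *ᵥ Fin.cons g 0 = Fin.cons g 0 := by
      funext i
      refine Fin.cases ?_ (fun i => ?_) i <;>
        simp [Matrix.mulVec, dotProduct, Fin.sum_univ_succ]
    rwa [e, block_congr, ← hy'] at h
  obtain ⟨k₀, hk₀⟩ : ∃ k₀, k₀ = -(x / (2 * g)) := ⟨_, rfl⟩
  obtain ⟨k, hk⟩ : ∃ k : Fin n → ℤ, k = fun j => -(y' j / g) := ⟨_, rfl⟩
  have h3 := congr_shear (0 : ℤ) (Fin.cons g 0) (Fin.cons k₀ k) (bord x y' (V₂ᵀ * R₂ * V₂))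
  have e3 : bord x y' (V₂ᵀ * R₂ * V₂) + vecMulVec (Fin.cons g 0) (Fin.cons k₀ k) +
      vecMulVec (Fin.cons k₀ k) (Fin.cons g 0) +
        (0 : ℤ) • vecMulVec (Fin.cons k₀ k) (Fin.cons k₀ k) =
      bord (x % (2 * g)) (fun j => y' j % g) (V₂ᵀ * R₂ * V₂) := by
    ext i j
    refine Fin.cases ?_ (fun i => ?_) i <;> refine Fin.cases ?_ (fun j => ?_) j <;>
      simp [vecMulVec_apply, hk, hk₀, Int.emod_def] <;> ring
  rw [zero_smul, add_zero, e3] at h3
  refine ⟨_, ?_, h1.trans (h2.trans h3)⟩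
  simp only [isoForms, mem_biUnion, Finset.mem_Icc, mem_image, mem_product, Fintype.mem_piFinset]
  refine ⟨g, abs_le.1 hgd, _, hT', (x % (2 * g), fun j => y' j % g),
    ⟨⟨Int.emod_nonneg _ (mul_ne_zero two_ne_zero hg), ?_⟩, fun j =>
      ⟨Int.emod_nonneg _ hg, (Int.emod_lt_abs _ hg).le.trans hgd⟩⟩, rfl⟩
  refine (Int.emod_lt_abs _ (mul_ne_zero two_ne_zero hg)).le.trans ?_
  rw [abs_mul, abs_two]
  linarith

/-- **Finiteness of the classes.** -/
theorem exists_finite_classes : ∀ (n : ℕ) (d : ℤ),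
    ∃ F : Finset (Matrix (Fin n) (Fin n) ℤ), d ≠ 0 →
      ∀ A : Matrix (Fin n) (Fin n) ℤ, A.IsSymm → A.det = d → ∃ B ∈ F, Congr A B := by
  classical
  intro n
  induction n using Nat.strong_induction_on with
  | _ n ih =>
    intro d
    match n with
    | 0 =>
      exact ⟨{0}, fun _ A _ _ => ⟨0, mem_singleton_self _, Subsingleton.elim A 0 ▸ Congr.refl _⟩⟩
    | 1 =>
      obtain ⟨C, hC⟩ := exists_congr_small 0 d
      choose F hF using ih 0 (by omega)
      refine ⟨anisoForms C F d, fun hd A hA hdet => ?_⟩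
      obtain ⟨A', hA', hsmall⟩ := hC hd A hA hdet
      have hs := hA'.isSymm hA
      have hdet' : A'.det = d := hA'.det_eq_of_int.trans hdet
      have ha : A' 0 0 ≠ 0 := fun h => hd (by rw [← hdet', det_fin_one, h])
      rw [bord_eq hs] at hdet' hA'
      obtain ⟨B, hB, hAB⟩ := exists_mem_aniso hF hd ha hsmall _ _ (hs.submatrix _) hdet'
      exact ⟨B, hB, hA'.trans hAB⟩
    | m + 2 =>
      obtain ⟨C, hC⟩ := exists_congr_small (m + 1) d
      choose F hF using ih (m + 1) (by omega)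
      choose G hG using ih m (by omega)
      refine ⟨anisoForms C F d ∪ isoForms G d, fun hd A hA hdet => ?_⟩
      obtain ⟨A', hA', hsmall⟩ := hC hd A hA hdet
      have hs := hA'.isSymm hA
      have hdet' : A'.det = d := hA'.det_eq_of_int.trans hdet
      rw [bord_eq hs] at hdet' hA'
      by_cases ha : A' 0 0 = 0
      · rw [ha] at hdet' hA'
        obtain ⟨B, hB, hAB⟩ := exists_mem_iso hG hd _ _ (hs.submatrix _) hdet'
        exact ⟨B, mem_union_right _ hB, hA'.trans hAB⟩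
      · obtain ⟨B, hB, hAB⟩ := exists_mem_aniso hF hd ha hsmall _ _ (hs.submatrix _) hdet'
        exact ⟨B, mem_union_left _ hB, hA'.trans hAB⟩

end FA.Reduction
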